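/-
S36, block [AUX], abstract part (helper25, Mathlib only): **divisibility of the order of `j̄` and of
`j̄ - 1728` at the points of the special fibre, from an explicit Hauptmodul relation.**

`D` is an integrally closed local domain with fraction field `κ` (in the application: the discrete
valuation ring `R_y / P₁₀` of a closed point `y` of the component `C₁₀`, `κ = κ₁₀` the residue field
of the Gauss valuation, of characteristic `q`).

* level `4` (`q` odd): `t : κ` with `j t⁴ (t + 16) = (t² + 256 t + 4096)³`, `2 ∈ Dˣ`: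
  `t, t + 16 ∈ Dˣ`, `j = unit · (t² + 256 t + 4096)³`,
  `j - 1728 = unit · ((t + 32)(t² - 512 t - 8192))²`, and `j = unit · (t - 1)⁶` if `3 = 0` in `D`;
* level `3` (`q = 2`): `t : κ` with `j t³ = (t + 27)(t + 243)³`, `3 ∈ Dˣ`: `t ∈ Dˣ` and
  `j = unit · (t + 1)⁴` if `2 = 0` in `D`;
* level `5` (`q = 2`): `t : κ` with `j t⁵ = (t² + 250 t + 3125)³`, `5 ∈ Dˣ`: `t ∈ Dˣ` and
  `j = unit · (t + 1)⁶` if `2 = 0` in `D`;
* in a discrete valuation ring `unit · x⁴ = unit · y⁶` is `unit · z¹²`;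
* the packaged consequences `H ∈ 𝔪 → H ∈ 𝔪 ^ 12` for
  `H = j ^ (4 δ) (j - 1728) ^ (6 ε) S ^ 12` (`q ≥ 5`), `H = j²` (`q = 3`), `H = j` (`q = 2`).
-/
import Mathlib

set_option autoImplicit false
set_option linter.unusedSectionVars false

open Polynomial IsLocalRing

namespace Fermat.Agent.S36.AuxLvl.OrdAbs

section General

variable {D κ : Type*} [CommRing D] [IsDomain D] [IsIntegrallyClosed D] [Field κ] [Algebra D κ]
  [IsFractionRing D κ]

/-- A root in the fraction field of a monic polynomial over an integrally closed domain lies in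
the domain. -/
theorem exists_of_monic_root (P : D[X]) (hP : P.Monic) (x : κ) (hx : aeval x P = 0) :
    ∃ y : D, algebraMap D κ y = x :=
  IsIntegrallyClosed.isIntegral_iff.mp ⟨P, hP, hx⟩

theorem algebraMap_inj : Function.Injective (algebraMap D κ) :=
  IsFractionRing.injective D κ

/-- an element of `D` whose image in `κ` has an inverse coming from `D` is a unit -/
theorem isUnit_of_mul_eq_one {a b : D} (h : algebraMap D κ a * algebraMap D κ b = 1) :
    IsUnit a := by
  refine IsUnit.of_mul_eq_one b ?_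
  apply algebraMap_inj (D := D) (κ := κ)
  rw [map_mul, map_one, h]

theorem ofNat_ne_zero_of_isUnit (n : ℕ) [n.AtLeastTwo] (h : IsUnit (OfNat.ofNat n : D)) :
    (OfNat.ofNat n : κ) ≠ 0 := by
  have h' := (h.map (algebraMap D κ)).ne_zero
  rwa [map_ofNat] at h'

end General

/-! ### Level 4 -/

section Level4

variable {D κ : Type*} [CommRing D] [IsDomain D] [IsIntegrallyClosed D] [Field κ] [Algebra D κ]
  [IsFractionRing D κ]

/-- The level-`4` Hauptmodul relation `j t⁴ (t + 16) = (t² + 256 t + 4096)³`. -/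
def Rel4 (j t : κ) : Prop := j * t ^ 4 * (t + 16) = (t ^ 2 + 256 * t + 4096) ^ 3

theorem Rel4.ne_zero {j t : κ} (h : Rel4 j t) (h2 : (2 : κ) ≠ 0) : t ≠ 0 := by
  rintro rfl
  rw [Rel4] at h
  have h3 : (2 : κ) ^ 36 = 0 := by
    have : (2 : κ) ^ 36 = (0 ^ 2 + 256 * 0 + 4096) ^ 3 := by norm_num
    rw [this, ← h]; ring
  exact h2 (pow_eq_zero_iff (by norm_num) |>.mp h3)

theorem Rel4.add_ne_zero {j t : κ} (h : Rel4 j t) (h2 : (2 : κ) ≠ 0) : t + 16 ≠ 0 := by
  intro h0
  rw [Rel4, h0, mul_zero] at h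
  have ht : t = -16 := eq_neg_of_add_eq_zero_left h0
  rw [ht] at h
  have h3 : (2 : κ) ^ 24 = 0 := by
    have : (2 : κ) ^ 24 = ((-16) ^ 2 + 256 * (-16) + 4096) ^ 3 := by norm_num
    rw [this, ← h]
  exact h2 (pow_eq_zero_iff (by norm_num) |>.mp h3)

/-- `4096 / t` satisfies a monic relation over `ℤ[j]`. -/
theorem Rel4.dual {j t : κ} (h : Rel4 j t) (ht : t ≠ 0) :
    ((4096 / t) ^ 2 + 256 * (4096 / t) + 4096) ^ 3 =
      65536 * j * (4096 / t) * (4096 / t + 256) := by
  rw [Rel4] at h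
  field_simp
  linear_combination (-(68719476736 : κ)) * h

/-- `256 / (t + 16)` satisfies a monic relation over `ℤ[j]`. -/
theorem Rel4.dual' {j t : κ} (h : Rel4 j t) (ht : t + 16 ≠ 0) :
    ((256 / (t + 16)) ^ 2 + 224 * (256 / (t + 16)) + 256) ^ 3 =
      j * (256 / (t + 16)) * (16 - 256 / (t + 16)) ^ 4 := by
  rw [Rel4] at h
  field_simp
  linear_combination (-(16777216 : κ)) * h

/-- **Level 4, integrality**: `t`, `1/t`, `1/(t + 16)` lie in `D`. -/
theorem level4_units (h2 : IsUnit (2 : D)) (j : D) (t : κ) (h : Rel4 (algebraMap D κ j) t) :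
    ∃ t' : D, algebraMap D κ t' = t ∧ IsUnit t' ∧ IsUnit (t' + 16) := by
  have h2κ : (2 : κ) ≠ 0 := ofNat_ne_zero_of_isUnit 2 h2
  have ht0 := h.ne_zero h2κ
  have ht16 := h.add_ne_zero h2κ
  obtain ⟨t', ht'⟩ := exists_of_monic_root
    ((X ^ 2 + C 256 * X + C 4096) ^ 3 - C j * X ^ 4 * (X + C 16)) (by monicity!) t (by
      have h' := h
      rw [Rel4] at h'
      simp only [map_sub, map_pow, map_add, map_mul, aeval_X, aeval_C, map_ofNat]
      linear_combination -h')
  obtain ⟨s', hs'⟩ := exists_of_monic_root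
    ((X ^ 2 + C 256 * X + C 4096) ^ 3 - C 65536 * C j * X * (X + C 256)) (by monicity!)
    (4096 / t) (by
      have h' := h.dual ht0
      simp only [map_sub, map_pow, map_add, map_mul, aeval_X, aeval_C, map_ofNat]
      linear_combination h')
  obtain ⟨r', hr'⟩ := exists_of_monic_root
    ((X ^ 2 + C 224 * X + C 256) ^ 3 - C j * X * (C 16 - X) ^ 4) (by monicity!)
    (256 / (t + 16)) (by
      have h' := h.dual' ht16
      simp only [map_sub, map_pow, map_add, map_mul, aeval_X, aeval_C, map_ofNat]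
      linear_combination h')
  refine ⟨t', ht', ?_, ?_⟩
  · have h1 : t' * s' = 2 ^ 12 := by
      apply algebraMap_inj (D := D) (κ := κ)
      rw [map_mul, ht', hs', map_pow, map_ofNat]
      field_simp
      norm_num
    exact isUnit_of_mul_isUnit_left (h1 ▸ h2.pow 12)
  · have h1 : (t' + 16) * r' = 2 ^ 8 := by
      apply algebraMap_inj (D := D) (κ := κ)
      rw [map_mul, map_add, ht', hr', map_pow, map_ofNat, map_ofNat]
      field_simp
      norm_num
    exact isUnit_of_mul_isUnit_left (h1 ▸ h2.pow 8)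

/-- the relation inside `D` -/
theorem rel4_in (j t' : D) (h : Rel4 (algebraMap D κ j) (algebraMap D κ t')) :
    j * t' ^ 4 * (t' + 16) = (t' ^ 2 + 256 * t' + 4096) ^ 3 := by
  apply algebraMap_inj (D := D) (κ := κ)
  rw [Rel4] at h
  simp only [map_mul, map_pow, map_add, map_ofNat]
  exact h

/-- **Level 4**: `j = unit · (t² + 256 t + 4096)³`. -/
theorem level4_j {j t' : D} (ht : IsUnit t') (ht16 : IsUnit (t' + 16))
    (h : j * t' ^ 4 * (t' + 16) = (t' ^ 2 + 256 * t' + 4096) ^ 3) :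
    ∃ u : Dˣ, j = u * (t' ^ 2 + 256 * t' + 4096) ^ 3 := by
  refine ⟨(ht.unit ^ 4 * ht16.unit)⁻¹, ?_⟩
  rw [← h, Units.eq_inv_mul_iff_mul_eq]
  simp only [Units.val_mul, Units.val_pow_eq_pow_val, IsUnit.unit_spec]
  ring

/-- **Level 4**: `j - 1728 = unit · ((t + 32)(t² - 512 t - 8192))²`. -/
theorem level4_j_sub {j t' : D} (ht : IsUnit t') (ht16 : IsUnit (t' + 16))
    (h : j * t' ^ 4 * (t' + 16) = (t' ^ 2 + 256 * t' + 4096) ^ 3) :
    ∃ u : Dˣ, j - 1728 = u * ((t' + 32) * (t' ^ 2 - 512 * t' - 8192)) ^ 2 := by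
  refine ⟨(ht.unit ^ 4 * ht16.unit)⁻¹, ?_⟩
  rw [Units.eq_inv_mul_iff_mul_eq]
  simp only [Units.val_mul, Units.val_pow_eq_pow_val, IsUnit.unit_spec]
  linear_combination h

/-- **Level 4, characteristic 3**: `j = unit · (t - 1)⁶`. -/
theorem level4_j_char_three {j t' : D} (h3 : (3 : D) = 0) (ht : IsUnit t')
    (ht16 : IsUnit (t' + 16))
    (h : j * t' ^ 4 * (t' + 16) = (t' ^ 2 + 256 * t' + 4096) ^ 3) :
    ∃ u : Dˣ, j = u * (t' - 1) ^ 6 := by
  obtain ⟨u, hu⟩ := level4_j ht ht16 h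
  refine ⟨u, ?_⟩
  have h1 : t' ^ 2 + 256 * t' + 4096 = (t' - 1) ^ 2 := by
    linear_combination (86 * t' + 1365) * h3
  rw [hu, h1]
  ring

end Level4

/-! ### Levels 3 and 5 (for residue characteristic 2) -/

section Level35

variable {D κ : Type*} [CommRing D] [IsDomain D] [IsIntegrallyClosed D] [Field κ] [Algebra D κ]
  [IsFractionRing D κ]

/-- The level-`3` Hauptmodul relation `j t³ = (t + 27)(t + 243)³`. -/
def Rel3 (j t : κ) : Prop := j * t ^ 3 = (t + 27) * (t + 243) ^ 3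

/-- The level-`5` Hauptmodul relation `j t⁵ = (t² + 250 t + 3125)³`. -/
def Rel5 (j t : κ) : Prop := j * t ^ 5 = (t ^ 2 + 250 * t + 3125) ^ 3

theorem Rel3.ne_zero {j t : κ} (h : Rel3 j t) (h3 : (3 : κ) ≠ 0) : t ≠ 0 := by
  rintro rfl
  rw [Rel3] at h
  have h' : (3 : κ) ^ 18 = 0 := by
    have : (3 : κ) ^ 18 = (0 + 27) * (0 + 243) ^ 3 := by norm_num
    rw [this, ← h]; ring
  exact h3 (pow_eq_zero_iff (by norm_num) |>.mp h')

theorem Rel5.ne_zero {j t : κ} (h : Rel5 j t) (h5 : (5 : κ) ≠ 0) : t ≠ 0 := by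
  rintro rfl
  rw [Rel5] at h
  have h' : (5 : κ) ^ 15 = 0 := by
    have : (5 : κ) ^ 15 = (0 ^ 2 + 250 * 0 + 3125) ^ 3 := by norm_num
    rw [this, ← h]; ring
  exact h5 (pow_eq_zero_iff (by norm_num) |>.mp h')

theorem Rel3.dual {j t : κ} (h : Rel3 j t) (ht : t ≠ 0) :
    (729 / t + 27) * (729 / t + 3) ^ 3 = j * (729 / t) := by
  rw [Rel3] at h
  field_simp
  linear_combination (-(729 : κ)) * h

theorem Rel5.dual {j t : κ} (h : Rel5 j t) (ht : t ≠ 0) :
    ((125 / t) ^ 2 + 10 * (125 / t) + 5) ^ 3 = j * (125 / t) := by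
  rw [Rel5] at h
  field_simp
  linear_combination (-(125 : κ)) * h

/-- **Level 3, integrality**: `t` and `1/t` lie in `D`. -/
theorem level3_unit (h3 : IsUnit (3 : D)) (j : D) (t : κ) (h : Rel3 (algebraMap D κ j) t) :
    ∃ t' : D, algebraMap D κ t' = t ∧ IsUnit t' := by
  have h3κ : (3 : κ) ≠ 0 := ofNat_ne_zero_of_isUnit 3 h3
  have ht0 := h.ne_zero h3κ
  obtain ⟨t', ht'⟩ := exists_of_monic_root
    ((X + C 27) * (X + C 243) ^ 3 - C j * X ^ 3) (by monicity!) t (by
      have h' := h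
      rw [Rel3] at h'
      simp only [map_sub, map_pow, map_add, map_mul, aeval_X, aeval_C, map_ofNat]
      linear_combination -h')
  obtain ⟨s', hs'⟩ := exists_of_monic_root
    ((X + C 27) * (X + C 3) ^ 3 - C j * X) (by monicity!) (729 / t) (by
      have h' := h.dual ht0
      simp only [map_sub, map_pow, map_add, map_mul, aeval_X, aeval_C, map_ofNat]
      linear_combination h')
  refine ⟨t', ht', ?_⟩
  have h1 : t' * s' = 3 ^ 6 := by
    apply algebraMap_inj (D := D) (κ := κ)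
    rw [map_mul, ht', hs', map_pow, map_ofNat]
    field_simp
    norm_num
  exact isUnit_of_mul_isUnit_left (h1 ▸ h3.pow 6)

/-- **Level 5, integrality**: `t` and `1/t` lie in `D`. -/
theorem level5_unit (h5 : IsUnit (5 : D)) (j : D) (t : κ) (h : Rel5 (algebraMap D κ j) t) :
    ∃ t' : D, algebraMap D κ t' = t ∧ IsUnit t' := by
  have h5κ : (5 : κ) ≠ 0 := ofNat_ne_zero_of_isUnit 5 h5
  have ht0 := h.ne_zero h5κ
  obtain ⟨t', ht'⟩ := exists_of_monic_root
    ((X ^ 2 + C 250 * X + C 3125) ^ 3 - C j * X ^ 5) (by monicity!) t (by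
      have h' := h
      rw [Rel5] at h'
      simp only [map_sub, map_pow, map_add, map_mul, aeval_X, aeval_C, map_ofNat]
      linear_combination -h')
  obtain ⟨s', hs'⟩ := exists_of_monic_root
    ((X ^ 2 + C 10 * X + C 5) ^ 3 - C j * X) (by monicity!) (125 / t) (by
      have h' := h.dual ht0
      simp only [map_sub, map_pow, map_add, map_mul, aeval_X, aeval_C, map_ofNat]
      linear_combination h')
  refine ⟨t', ht', ?_⟩
  have h1 : t' * s' = 5 ^ 3 := by
    apply algebraMap_inj (D := D) (κ := κ)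
    rw [map_mul, ht', hs', map_pow, map_ofNat]
    field_simp
    norm_num
  exact isUnit_of_mul_isUnit_left (h1 ▸ h5.pow 3)

theorem rel3_in (j t' : D) (h : Rel3 (algebraMap D κ j) (algebraMap D κ t')) :
    j * t' ^ 3 = (t' + 27) * (t' + 243) ^ 3 := by
  apply algebraMap_inj (D := D) (κ := κ)
  rw [Rel3] at h
  simp only [map_mul, map_pow, map_add, map_ofNat]
  exact h

theorem rel5_in (j t' : D) (h : Rel5 (algebraMap D κ j) (algebraMap D κ t')) :
    j * t' ^ 5 = (t' ^ 2 + 250 * t' + 3125) ^ 3 := by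
  apply algebraMap_inj (D := D) (κ := κ)
  rw [Rel5] at h
  simp only [map_mul, map_pow, map_add, map_ofNat]
  exact h

/-- **Level 3, characteristic 2**: `j = unit · (t + 1)⁴`. -/
theorem level3_j_char_two {j t' : D} (h2 : (2 : D) = 0) (ht : IsUnit t')
    (h : j * t' ^ 3 = (t' + 27) * (t' + 243) ^ 3) : ∃ u : Dˣ, j = u * (t' + 1) ^ 4 := by
  refine ⟨(ht.unit ^ 3)⁻¹, ?_⟩
  rw [Units.eq_inv_mul_iff_mul_eq]
  simp only [Units.val_pow_eq_pow_val, IsUnit.unit_spec]
  linear_combination h + (376 * t' ^ 3 + 98412 * t' ^ 2 + 9565936 * t' + 193710244) * h2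

/-- **Level 5, characteristic 2**: `j = unit · (t + 1)⁶`. -/
theorem level5_j_char_two {j t' : D} (h2 : (2 : D) = 0) (ht : IsUnit t')
    (h : j * t' ^ 5 = (t' ^ 2 + 250 * t' + 3125) ^ 3) : ∃ u : Dˣ, j = u * (t' + 1) ^ 6 := by
  refine ⟨(ht.unit ^ 5)⁻¹, ?_⟩
  have h1 : t' ^ 2 + 250 * t' + 3125 = (t' + 1) ^ 2 := by
    linear_combination (124 * t' + 1562) * h2
  rw [Units.eq_inv_mul_iff_mul_eq]
  simp only [Units.val_pow_eq_pow_val, IsUnit.unit_spec]
  rw [mul_comm, h, h1]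
  ring

end Level35

/-! ### Discrete valuation rings: `4 ∣ ord` and `6 ∣ ord` give `12 ∣ ord` -/

section DVR

variable {D : Type*} [CommRing D] [IsDomain D] [IsDiscreteValuationRing D]

theorem exists_pow_twelve {j x y : D} (u v : Dˣ) (hx : j = u * x ^ 4) (hy : j = v * y ^ 6) :
    ∃ (w : Dˣ) (z : D), j = w * z ^ 12 := by
  by_cases hj : j = 0
  · exact ⟨1, 0, by simp [hj]⟩
  obtain ⟨ϖ, hϖ⟩ := IsDiscreteValuationRing.exists_irreducible D
  have hx0 : x ≠ 0 := by
    rintro rfl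
    apply hj
    rw [hx]
    simp
  have hy0 : y ≠ 0 := by
    rintro rfl
    apply hj
    rw [hy]
    simp
  obtain ⟨m, a, hxa⟩ := IsDiscreteValuationRing.eq_unit_mul_pow_irreducible hx0 hϖ
  obtain ⟨n, b, hyb⟩ := IsDiscreteValuationRing.eq_unit_mul_pow_irreducible hy0 hϖ
  have hmn : 4 * m = 6 * n := by
    refine IsDiscreteValuationRing.unit_mul_pow_congr_pow hϖ hϖ (u * a ^ 4) (v * b ^ 6) _ _ ?_
    have h1 : ((u * a ^ 4 : Dˣ) : D) * ϖ ^ (4 * m) = j := by
      rw [hx, hxa]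
      push_cast
      ring
    have h2 : ((v * b ^ 6 : Dˣ) : D) * ϖ ^ (6 * n) = j := by
      rw [hy, hyb]
      push_cast
      ring
    rw [h1, h2]
  obtain ⟨k, hk⟩ : 3 ∣ m := by omega
  refine ⟨u * a ^ 4, ϖ ^ k, ?_⟩
  rw [hx, hxa, hk]
  push_cast
  ring

end DVR

/-! ### Packaged consequences for `[R1]`: `H ∈ 𝔪 → H ∈ 𝔪 ^ 12` -/

section Packaged

variable {D κ : Type*} [CommRing D] [IsDomain D] [IsIntegrallyClosed D] [IsLocalRing D]
  [Field κ] [Algebra D κ] [IsFractionRing D κ]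

theorem unit_mul_pow_mem {I : Ideal D} [I.IsPrime] {a x : D} (u : Dˣ) {n : ℕ} (h : a = u * x ^ n)
    (ha : a ∈ I) : x ∈ I := by
  rw [h] at ha
  rcases Ideal.IsPrime.mem_or_mem ‹_› ha with h1 | h1
  · exact absurd (I.eq_top_of_isUnit_mem h1 u.isUnit) (Ideal.IsPrime.ne_top ‹_›)
  · exact Ideal.IsPrime.mem_of_pow_mem ‹_› _ h1

theorem pow_mem_pow_twelve {I : Ideal D} {a x : D} (u : Dˣ) {n : ℕ} (h : a = u * x ^ n)
    (hx : x ∈ I) {r : ℕ} (hr : 12 ≤ n * r) : a ^ r ∈ I ^ 12 := by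
  have h1 : a ^ r = (u : D) ^ r * x ^ (n * r - 12) * x ^ 12 := by
    rw [h, mul_pow, ← pow_mul, mul_assoc, ← pow_add, Nat.sub_add_cancel hr]
  rw [h1]
  exact Ideal.mul_mem_left _ _ (Ideal.pow_mem_pow hx 12)

/-- **(AUX) for odd residue characteristic**: with a level-`4` Hauptmodul `t`, the function
`H = j^(4δ) (j - 1728)^(6ε) S^12` vanishes to order at least `12` wherever it vanishes. -/
theorem mem_pow_twelve_of_rel4 (h2 : IsUnit (2 : D)) (j : D) (t : κ)
    (h : Rel4 (algebraMap D κ j) t) (δ ε : ℕ) (S : D)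
    (hH : j ^ (4 * δ) * (j - 1728) ^ (6 * ε) * S ^ 12 ∈ maximalIdeal D) :
    j ^ (4 * δ) * (j - 1728) ^ (6 * ε) * S ^ 12 ∈ maximalIdeal D ^ 12 := by
  obtain ⟨t', rfl, ht, ht16⟩ := level4_units h2 j t h
  have hrel := rel4_in j t' h
  have hprime : (maximalIdeal D).IsPrime := (maximalIdeal.isMaximal D).isPrime
  rcases hprime.mem_or_mem hH with h1 | h1
  · rcases hprime.mem_or_mem h1 with h3 | h3
    · -- `j ∈ 𝔪`
      have hδ : δ ≠ 0 := by
        rintro rfl
        rw [mul_zero, pow_zero] at h3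
        exact hprime.ne_top ((Ideal.eq_top_iff_one _).mpr h3)
      have hj : j ∈ maximalIdeal D := hprime.mem_of_pow_mem _ h3
      obtain ⟨u, hu⟩ := level4_j ht ht16 hrel
      have hx := unit_mul_pow_mem u hu hj
      have := pow_mem_pow_twelve u hu hx (r := 4 * δ) (by omega)
      exact Ideal.mul_mem_right _ _ (Ideal.mul_mem_right _ _ this)
    · -- `j - 1728 ∈ 𝔪`
      have hε : ε ≠ 0 := by
        rintro rfl
        rw [mul_zero, pow_zero] at h3
        exact hprime.ne_top ((Ideal.eq_top_iff_one _).mpr h3)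
      have hj : j - 1728 ∈ maximalIdeal D := hprime.mem_of_pow_mem _ h3
      obtain ⟨u, hu⟩ := level4_j_sub ht ht16 hrel
      have hx := unit_mul_pow_mem u hu hj
      have := pow_mem_pow_twelve u hu hx (r := 6 * ε) (by omega)
      exact Ideal.mul_mem_right _ _ (Ideal.mul_mem_left _ _ this)
  · have hS : S ∈ maximalIdeal D := hprime.mem_of_pow_mem _ h1
    exact Ideal.mul_mem_left _ _ (Ideal.pow_mem_pow hS 12)

/-- **(AUX) for residue characteristic 3**: `H = j²`. -/
theorem mem_pow_twelve_of_rel4_char_three (h3 : (3 : D) = 0) (j : D) (t : κ)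
    (h : Rel4 (algebraMap D κ j) t) (hH : j ^ 2 ∈ maximalIdeal D) :
    j ^ 2 ∈ maximalIdeal D ^ 12 := by
  have h2 : IsUnit (2 : D) := by
    have : (2 : D) = -1 := by linear_combination h3
    rw [this]
    exact isUnit_one.neg
  obtain ⟨t', rfl, ht, ht16⟩ := level4_units h2 j t h
  have hrel := rel4_in j t' h
  have hprime : (maximalIdeal D).IsPrime := (maximalIdeal.isMaximal D).isPrime
  have hj : j ∈ maximalIdeal D := hprime.mem_of_pow_mem _ hH
  obtain ⟨u, hu⟩ := level4_j_char_three h3 ht ht16 hrel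
  have hx := unit_mul_pow_mem u hu hj
  exact pow_mem_pow_twelve u hu hx (r := 2) (by norm_num)

end Packaged

section PackagedTwo

variable {D κ : Type*} [CommRing D] [IsDomain D] [IsDiscreteValuationRing D]
  [Field κ] [Algebra D κ] [IsFractionRing D κ]

/-- **(AUX) for residue characteristic 2**: `H = j`, with Hauptmoduln of levels `3` and `5`. -/
theorem mem_pow_twelve_of_rel3_rel5 (h2 : (2 : D) = 0) (j : D) (t₃ t₅ : κ)
    (h3 : Rel3 (algebraMap D κ j) t₃) (h5 : Rel5 (algebraMap D κ j) t₅)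
    (hH : j ∈ maximalIdeal D) : j ∈ maximalIdeal D ^ 12 := by
  have hu3 : IsUnit (3 : D) := by
    have : (3 : D) = 1 := by linear_combination h2
    rw [this]
    exact isUnit_one
  have hu5 : IsUnit (5 : D) := by
    have : (5 : D) = 1 := by linear_combination 2 * h2
    rw [this]
    exact isUnit_one
  obtain ⟨a, rfl, ha⟩ := level3_unit hu3 j t₃ h3
  obtain ⟨b, rfl, hb⟩ := level5_unit hu5 j t₅ h5
  obtain ⟨u, hu⟩ := level3_j_char_two h2 ha (rel3_in j a h3)
  obtain ⟨v, hv⟩ := level5_j_char_two h2 hb (rel5_in j b h5)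
  obtain ⟨w, z, hz⟩ := exists_pow_twelve u v hu hv
  have hprime : (maximalIdeal D).IsPrime := (maximalIdeal.isMaximal D).isPrime
  have hzm : z ∈ maximalIdeal D := unit_mul_pow_mem w hz hH
  rw [hz]
  exact Ideal.mul_mem_left _ _ (Ideal.pow_mem_pow hzm 12)

end PackagedTwo

end Fermat.Agent.S36.AuxLvl.OrdAbs
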