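/-
S36, block [AUX], ord bookkeeping (helper25; Mathlib + `AuxLvl/OrdAbs`): **the hypotheses
`h3`, `h2`, `h6`, `h12` of `S36/R1/OrdTwelve` from the Hauptmodul relations of levels `4` and `9`.**

`A` is a Dedekind domain (the coordinate ring `R̄` of the special fibre of level `M₀'`), `κ` its
fraction field (the residue field of the Gauss valuation), `v` a closed point.

* level `4` (`2 ∈ Aˣ`), `t : κ` with `Rel4 j t`, i.e. `j t⁴ (t + 16) = (t² + 256 t + 4096)³`:
  `v(j) = γ ^ 3`, `v(j - 1728) = γ ^ 2`, and `v(j) = γ ^ 6` if `3 = 0` in `A`;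
* level `9` (`3 ∈ Aˣ`), `s : κ` with `Rel9 j s`, i.e.
  `j s⁹ (s² + 9 s + 27) = ((s + 9)(s³ + 243 s² + 2187 s + 6561))³`: `s`, `s² + 9 s + 27 ∈ Aˣ`, and
  `v(j) = γ ^ 12` if `2 = 0` in `A`.
-/
import Mathlib
import Fermat.Agent.S36.AuxLvl.OrdAbs

set_option autoImplicit false
set_option linter.unusedSectionVars false

open Polynomial IsDedekindDomain WithZero

namespace Fermat.Agent.S36.AuxLvl.OrdDedekind

open Fermat.Agent.S36.AuxLvl.OrdAbs

/-! ### Level 9, abstract part -/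

section Level9

variable {D κ : Type*} [CommRing D] [IsDomain D] [IsIntegrallyClosed D] [Field κ] [Algebra D κ]
  [IsFractionRing D κ]

/-- The level-`9` Hauptmodul relation
`j s⁹ (s² + 9 s + 27) = ((s + 9)(s³ + 243 s² + 2187 s + 6561))³`. -/
def Rel9 (j s : κ) : Prop :=
  j * s ^ 9 * (s ^ 2 + 9 * s + 27) = ((s + 9) * (s ^ 3 + 243 * s ^ 2 + 2187 * s + 6561)) ^ 3

theorem Rel9.ne_zero {j s : κ} (h : Rel9 j s) (h3 : (3 : κ) ≠ 0) : s ≠ 0 := by
  rintro rfl
  rw [Rel9] at h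
  have h' : (3 : κ) ^ 30 = 0 := by
    have : (3 : κ) ^ 30 = ((0 + 9) * (0 ^ 3 + 243 * 0 ^ 2 + 2187 * 0 + 6561)) ^ 3 := by norm_num
    rw [this, ← h]; ring
  exact h3 (pow_eq_zero_iff (by norm_num) |>.mp h')

/-- `27 / s` satisfies the dual (monic) relation. -/
theorem Rel9.dual {j s : κ} (h : Rel9 j s) (hs : s ≠ 0) :
    ((27 / s + 3) * ((27 / s) ^ 3 + 9 * (27 / s) ^ 2 + 27 * (27 / s) + 3)) ^ 3 =
      j * (27 / s) * ((27 / s) ^ 2 + 9 * (27 / s) + 27) := by
  rw [Rel9] at h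
  field_simp
  linear_combination (-(729 : κ)) * h

/-- In a domain where `3` is a unit, the relation forces `s² + 9 s + 27` to divide a power of
`3`. -/
theorem dvd_pow_three_of_rel {j s : D}
    (e : j * s ^ 9 * (s ^ 2 + 9 * s + 27) =
      ((s + 9) * (s ^ 3 + 243 * s ^ 2 + 2187 * s + 6561)) ^ 3) :
    s ^ 2 + 9 * s + 27 ∣ 3 ^ 24 := by
  set Q := s ^ 2 + 9 * s + 27 with hQ
  set C := s ^ 3 + 243 * s ^ 2 + 2187 * s + 6561 with hC
  set T := 2 * s + 9 with hT
  set M := j * s ^ 9 with hM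
  have e' : ((s + 9) * C) ^ 3 = Q * M := by rw [← e]; ring
  -- step 1
  set N₁ := (Q ^ 2 - 81 * Q + 2187) * C ^ 3 - s ^ 3 * M with hN₁
  have h1 : 27 ^ 3 * C ^ 3 = Q * N₁ := by
    rw [hN₁]
    linear_combination (-(s ^ 3)) * e'
  -- step 2
  set N₂ := N₁ - 27 ^ 3 * ((s + 234) * (((s + 234) * Q) ^ 2 + 81 * ((s + 234) * Q) * T
    + 2187 * T ^ 2)) with hN₂
  have h2 : 27 ^ 6 * T ^ 3 = Q * N₂ := by
    rw [hN₂]
    linear_combination h1
  -- step 3
  refine ⟨N₂ * T - 27 ^ 6 * (16 * Q - 216), ?_⟩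
  linear_combination T * h2

/-- the relation inside `D` -/
theorem rel9_in (j s' : D) (h : Rel9 (algebraMap D κ j) (algebraMap D κ s')) :
    j * s' ^ 9 * (s' ^ 2 + 9 * s' + 27) =
      ((s' + 9) * (s' ^ 3 + 243 * s' ^ 2 + 2187 * s' + 6561)) ^ 3 := by
  apply algebraMap_inj (D := D) (κ := κ)
  rw [Rel9] at h
  simp only [map_mul, map_pow, map_add, map_ofNat]
  exact h

/-- **Level 9, integrality**: `s`, `1/s`, `1/(s² + 9 s + 27)` lie in `D`. -/
theorem level9_units (h3 : IsUnit (3 : D)) (j : D) (s : κ) (h : Rel9 (algebraMap D κ j) s) :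
    ∃ s' : D, algebraMap D κ s' = s ∧ IsUnit s' ∧ IsUnit (s' ^ 2 + 9 * s' + 27) := by
  have h3κ : (3 : κ) ≠ 0 := ofNat_ne_zero_of_isUnit 3 h3
  have hs0 := h.ne_zero h3κ
  obtain ⟨s', hs'⟩ := exists_of_monic_root
    (((X + C 9) * (X ^ 3 + C 243 * X ^ 2 + C 2187 * X + C 6561)) ^ 3
      - C j * X ^ 9 * (X ^ 2 + C 9 * X + C 27)) (by monicity!) s (by
      have h' := h
      rw [Rel9] at h'
      simp only [map_sub, map_pow, map_add, map_mul, aeval_X, aeval_C, map_ofNat]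
      linear_combination -h')
  obtain ⟨r', hr'⟩ := exists_of_monic_root
    (((X + C 3) * (X ^ 3 + C 9 * X ^ 2 + C 27 * X + C 3)) ^ 3
      - C j * X * (X ^ 2 + C 9 * X + C 27)) (by monicity!) (27 / s) (by
      have h' := h.dual hs0
      simp only [map_sub, map_pow, map_add, map_mul, aeval_X, aeval_C, map_ofNat]
      linear_combination h')
  subst hs'
  refine ⟨s', rfl, ?_, ?_⟩
  · have h1 : s' * r' = 3 ^ 3 := by
      apply algebraMap_inj (D := D) (κ := κ)
      rw [map_mul, hr', map_pow, map_ofNat]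
      field_simp
      norm_num
    exact isUnit_of_mul_isUnit_left (h1 ▸ h3.pow 3)
  · exact isUnit_of_dvd_unit (dvd_pow_three_of_rel (rel9_in j s' h)) (h3.pow 24)

/-- **Level 9, characteristic 2**: `j = unit · (s + 1)¹²`. -/
theorem level9_j_char_two {j s' : D} (h2 : (2 : D) = 0) (hs : IsUnit s')
    (hQ : IsUnit (s' ^ 2 + 9 * s' + 27))
    (h : j * s' ^ 9 * (s' ^ 2 + 9 * s' + 27) =
      ((s' + 9) * (s' ^ 3 + 243 * s' ^ 2 + 2187 * s' + 6561)) ^ 3) :
    ∃ u : Dˣ, j = u * (s' + 1) ^ 12 := by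
  refine ⟨(hs.unit ^ 9 * hQ.unit)⁻¹, ?_⟩
  rw [Units.eq_inv_mul_iff_mul_eq]
  simp only [Units.val_mul, Units.val_pow_eq_pow_val, IsUnit.unit_spec]
  have h4 : (s' + 9) * (s' ^ 3 + 243 * s' ^ 2 + 2187 * s' + 6561) = (s' + 1) ^ 4 := by
    linear_combination (124 * s' ^ 3 + 2184 * s' ^ 2 + 13120 * s' + 29524) * h2
  rw [h4] at h
  linear_combination h

end Level9

/-! ### Dedekind domains: the valuations of `j` and `j - 1728` -/

section Dedekind

variable {A κ : Type*} [CommRing A] [IsDedekindDomain A] [Field κ] [Algebra A κ]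
  [IsFractionRing A κ] (v : HeightOneSpectrum A)

theorem intValuation_unit (u : Aˣ) : v.intValuation (u : A) = 1 := by
  have h1 : v.intValuation (u : A) * v.intValuation ((u⁻¹ : Aˣ) : A) = 1 := by
    rw [← map_mul, ← Units.val_mul, mul_inv_cancel, Units.val_one, map_one]
  have h2 := v.intValuation_le_one (u : A)
  have h3 := v.intValuation_le_one ((u⁻¹ : Aˣ) : A)
  by_contra hne
  have hlt : v.intValuation (u : A) < 1 := lt_of_le_of_ne h2 hne
  have : v.intValuation (u : A) * v.intValuation ((u⁻¹ : Aˣ) : A) < 1 := by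
    calc v.intValuation (u : A) * v.intValuation ((u⁻¹ : Aˣ) : A)
        ≤ v.intValuation (u : A) * 1 := by gcongr
      _ < 1 := by rwa [mul_one]
  exact absurd h1 (ne_of_lt this)

/-- **Level 4**: `3 ∣ ord_y j̄`. -/
theorem exists_intValuation_eq_pow_three (h2 : IsUnit (2 : A)) (j : A) (t : κ)
    (h : Rel4 (algebraMap A κ j) t) : ∃ γ : ℤᵐ⁰, v.intValuation j = γ ^ 3 := by
  obtain ⟨t', rfl, ht, ht16⟩ := level4_units h2 j t h
  obtain ⟨u, hu⟩ := level4_j ht ht16 (rel4_in j t' h)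
  exact ⟨v.intValuation (t' ^ 2 + 256 * t' + 4096), by
    rw [hu, map_mul, map_pow, intValuation_unit, one_mul]⟩

/-- **Level 4**: `2 ∣ ord_y (j̄ - 1728)`. -/
theorem exists_intValuation_sub_eq_pow_two (h2 : IsUnit (2 : A)) (j : A) (t : κ)
    (h : Rel4 (algebraMap A κ j) t) : ∃ γ : ℤᵐ⁰, v.intValuation (j - 1728) = γ ^ 2 := by
  obtain ⟨t', rfl, ht, ht16⟩ := level4_units h2 j t h
  obtain ⟨u, hu⟩ := level4_j_sub ht ht16 (rel4_in j t' h)
  exact ⟨v.intValuation ((t' + 32) * (t' ^ 2 - 512 * t' - 8192)), by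
    rw [hu, map_mul, map_pow, intValuation_unit, one_mul]⟩

/-- **Level 4, characteristic 3**: `6 ∣ ord_y j̄`. -/
theorem exists_intValuation_eq_pow_six (h3 : (3 : A) = 0) (j : A) (t : κ)
    (h : Rel4 (algebraMap A κ j) t) : ∃ γ : ℤᵐ⁰, v.intValuation j = γ ^ 6 := by
  have h2 : IsUnit (2 : A) := by
    have : (2 : A) = -1 := by linear_combination h3
    rw [this]
    exact isUnit_one.neg
  obtain ⟨t', rfl, ht, ht16⟩ := level4_units h2 j t h
  obtain ⟨u, hu⟩ := level4_j_char_three h3 ht ht16 (rel4_in j t' h)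
  exact ⟨v.intValuation (t' - 1), by
    rw [hu, map_mul, map_pow, intValuation_unit, one_mul]⟩

/-- **Level 9, characteristic 2**: `12 ∣ ord_y j̄`. -/
theorem exists_intValuation_eq_pow_twelve (h2 : (2 : A) = 0) (j : A) (s : κ)
    (h : Rel9 (algebraMap A κ j) s) : ∃ γ : ℤᵐ⁰, v.intValuation j = γ ^ 12 := by
  have h3 : IsUnit (3 : A) := by
    have : (3 : A) = 1 := by linear_combination h2
    rw [this]
    exact isUnit_one
  obtain ⟨s', rfl, hs, hQ⟩ := level9_units h3 j s h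
  obtain ⟨u, hu⟩ := level9_j_char_two h2 hs hQ (rel9_in j s' h)
  exact ⟨v.intValuation (s' + 1), by
    rw [hu, map_mul, map_pow, intValuation_unit, one_mul]⟩

end Dedekind

end Fermat.Agent.S36.AuxLvl.OrdDedekind
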